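/-
P-DS row 453 (DS-0), helper7.  Part 1: coset bookkeeping for the Hecke operator `T_p` on
`Γ₁(N)`-invariant functions (any weight).

* `dsT k p δ f := heckeU k p f + (f ∣[k] δ) ∣[k] heckeDiagMatrix p`, where `δ ∈ Γ₀(N)` has lower
  right entry `≡ p (mod N)` (so `f ∣[k] δ = ⟨p⟩ f`).
* `dsT_slash` : `dsT k p δ f` is `Γ₁(N)`-invariant when `f` is (`p` prime, `p ∤ N`).
-/
import Mathlib
import Fermat.Prelude.Def_ModularForm_HeckeOperator

set_option autoImplicit false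

noncomputable section

namespace Fermat.Agent.H7.DS

open Matrix.SpecialLinearGroup UpperHalfPlane CongruenceSubgroup ModularForm
open scoped MatrixGroups ModularForm OnePoint

/-! ### explicit elements of `SL(2, ℤ)` -/

/-- The matrix `[[a, b], [c, d]]` of determinant one. -/
def mkSL (a b c d : ℤ) (h : a * d - b * c = 1) : SL(2, ℤ) :=
  ⟨!![a, b; c, d], by rw [Matrix.det_fin_two_of]; exact h⟩

@[simp] theorem mkSL_00 (a b c d : ℤ) (h : a * d - b * c = 1) : (mkSL a b c d h) 0 0 = a := rfl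
@[simp] theorem mkSL_01 (a b c d : ℤ) (h : a * d - b * c = 1) : (mkSL a b c d h) 0 1 = b := rfl
@[simp] theorem mkSL_10 (a b c d : ℤ) (h : a * d - b * c = 1) : (mkSL a b c d h) 1 0 = c := rfl
@[simp] theorem mkSL_11 (a b c d : ℤ) (h : a * d - b * c = 1) : (mkSL a b c d h) 1 1 = d := rfl

theorem sl_det_eq (g : SL(2, ℤ)) : g 0 0 * g 1 1 - g 0 1 * g 1 0 = 1 := by
  have h := g.det_coe
  rwa [Matrix.det_fin_two] at h

theorem mapGL_apply' (g : SL(2, ℤ)) (i j : Fin 2) :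
    (mapGL ℝ g : GL (Fin 2) ℝ) i j = ((g i j : ℤ) : ℝ) := by
  simp

/-! ### `Γ₀(N)`, `Γ₁(N)` and the lower right entry -/

section groups

variable {N : ℕ}

/-- The lower right entry modulo `N`. -/
def lr (N : ℕ) (g : SL(2, ℤ)) : ZMod N := ((g 1 1 : ℤ) : ZMod N)

theorem lr_def (g : SL(2, ℤ)) : lr N g = ((g 1 1 : ℤ) : ZMod N) := rfl

theorem lr_mul {g₁ g₂ : SL(2, ℤ)} (h₁ : g₁ ∈ Gamma0 N) : lr N (g₁ * g₂) = lr N g₁ * lr N g₂ := by
  have hc : ((g₁ 1 0 : ℤ) : ZMod N) = 0 := Gamma0_mem.mp h₁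
  simp only [lr, Matrix.SpecialLinearGroup.coe_mul, Matrix.mul_apply, Fin.sum_univ_two]
  push_cast
  rw [hc]
  ring

theorem lr_one : lr N 1 = 1 := by
  simp [lr]

theorem lr_inv_mul {g : SL(2, ℤ)} (h : g ∈ Gamma0 N) : lr N g⁻¹ * lr N g = 1 := by
  rw [← lr_mul (inv_mem h), inv_mul_cancel, lr_one]

theorem lr_mul_inv {g : SL(2, ℤ)} (h : g ∈ Gamma0 N) : lr N g * lr N g⁻¹ = 1 := by
  rw [← lr_mul h, mul_inv_cancel, lr_one]

theorem lr_pow {g : SL(2, ℤ)} (h : g ∈ Gamma0 N) (m : ℕ) : lr N (g ^ m) = lr N g ^ m := by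
  induction m with
  | zero => simp [lr_one]
  | succ m ih => rw [pow_succ', lr_mul h, ih, pow_succ']

theorem isUnit_lr {g : SL(2, ℤ)} (h : g ∈ Gamma0 N) : IsUnit (lr N g) :=
  IsUnit.of_mul_eq_one _ (lr_mul_inv h)

theorem mem_Gamma1_of_lr {g : SL(2, ℤ)} (h : g ∈ Gamma0 N) (h1 : lr N g = 1) : g ∈ Gamma1 N := by
  rw [Gamma1_mem]
  have hc : ((g 1 0 : ℤ) : ZMod N) = 0 := Gamma0_mem.mp h
  have hd : ((g 1 1 : ℤ) : ZMod N) = 1 := h1
  refine ⟨?_, hd, hc⟩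
  have := congrArg (Int.cast : ℤ → ZMod N) (sl_det_eq g)
  push_cast at this
  rw [hc, hd] at this
  simpa using this

theorem Gamma1_le_Gamma0' : Gamma1 N ≤ Gamma0 N := by
  intro g hg
  rw [Gamma1_mem] at hg
  exact Gamma0_mem.mpr hg.2.2

theorem lr_of_mem_Gamma1 {g : SL(2, ℤ)} (h : g ∈ Gamma1 N) : lr N g = 1 :=
  ((Gamma1_mem N g).mp h).2.1

/-- `Γ₁(N)` is normalised by `Γ₀(N)`. -/
theorem conj_mem_Gamma1 {δ g : SL(2, ℤ)} (hδ : δ ∈ Gamma0 N) (hg : g ∈ Gamma1 N) :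
    δ * g * δ⁻¹ ∈ Gamma1 N := by
  have hg0 := Gamma1_le_Gamma0' hg
  refine mem_Gamma1_of_lr (mul_mem (mul_mem hδ hg0) (inv_mem hδ)) ?_
  rw [lr_mul (mul_mem hδ hg0), lr_mul hδ, lr_of_mem_Gamma1 hg, mul_one, lr_mul_inv hδ]

theorem conj_mem_Gamma1' {δ g : SL(2, ℤ)} (hδ : δ ∈ Gamma0 N) (hg : g ∈ Gamma1 N) :
    δ⁻¹ * g * δ ∈ Gamma1 N := by
  simpa using conj_mem_Gamma1 (inv_mem hδ) hg

/-- Two elements of `Γ₀(N)` with the same lower right entry differ by an element of `Γ₁(N)`. -/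
theorem mul_inv_mem_Gamma1 {g₁ g₂ : SL(2, ℤ)} (h₁ : g₁ ∈ Gamma0 N) (h₂ : g₂ ∈ Gamma0 N)
    (h : lr N g₁ = lr N g₂) : g₁ * g₂⁻¹ ∈ Gamma1 N := by
  refine mem_Gamma1_of_lr (mul_mem h₁ (inv_mem h₂)) ?_
  rw [lr_mul h₁, h, lr_mul_inv h₂]

end groups

/-! ### invariant functions -/

/-- `f` is invariant under the weight `k` action of `Γ₁(N)`. -/
def Inv1 (N : ℕ) (k : ℤ) (f : ℍ → ℂ) : Prop :=
  ∀ g : SL(2, ℤ), g ∈ Gamma1 N → f ∣[k] (mapGL ℝ g) = f

section inv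

variable {N : ℕ} {k : ℤ} {f : ℍ → ℂ}

theorem Inv1.slash_eq (hf : Inv1 N k f) {g₁ g₂ : SL(2, ℤ)} (h₁ : g₁ ∈ Gamma0 N)
    (h₂ : g₂ ∈ Gamma0 N) (h : lr N g₁ = lr N g₂) :
    f ∣[k] (mapGL ℝ g₁) = f ∣[k] (mapGL ℝ g₂) := by
  have h3 := hf _ (mul_inv_mem_Gamma1 h₁ h₂ h)
  have h4 : g₁ = (g₁ * g₂⁻¹) * g₂ := by group
  rw [h4, map_mul, SlashAction.slash_mul, h3]

theorem Inv1.slash (hf : Inv1 N k f) {δ : SL(2, ℤ)} (hδ : δ ∈ Gamma0 N) :
    Inv1 N k (f ∣[k] (mapGL ℝ δ)) := by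
  intro g hg
  have h3 := hf _ (conj_mem_Gamma1 hδ hg)
  have h4 : δ * g = (δ * g * δ⁻¹) * δ := by group
  rw [← SlashAction.slash_mul, ← map_mul, h4, map_mul, SlashAction.slash_mul, h3]

theorem Inv1.slash_mul_eq (hf : Inv1 N k f) {g : SL(2, ℤ)} (hg : g ∈ Gamma1 N)
    (A : GL (Fin 2) ℝ) : f ∣[k] (mapGL ℝ g * A) = f ∣[k] A := by
  rw [SlashAction.slash_mul, hf g hg]

theorem Inv1.add {f₁ f₂ : ℍ → ℂ} (h₁ : Inv1 N k f₁) (h₂ : Inv1 N k f₂) : Inv1 N k (f₁ + f₂) := by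
  intro g hg
  rw [SlashAction.add_slash, h₁ g hg, h₂ g hg]

theorem Inv1.neg (h₁ : Inv1 N k f) : Inv1 N k (-f) := by
  intro g hg
  rw [SlashAction.neg_slash, h₁ g hg]

theorem Inv1.sub {f₁ f₂ : ℍ → ℂ} (h₁ : Inv1 N k f₁) (h₂ : Inv1 N k f₂) : Inv1 N k (f₁ - f₂) := by
  rw [sub_eq_add_neg]
  exact h₁.add h₂.neg

theorem sl_sigma (g : SL(2, ℤ)) : UpperHalfPlane.σ (mapGL ℝ g) = .refl ℝ ℂ := by
  rw [UpperHalfPlane.σ, if_pos]
  simp

theorem Inv1.smul (h₁ : Inv1 N k f) (c : ℂ) : Inv1 N k (c • f) := by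
  intro g hg
  rw [ModularForm.smul_slash, sl_sigma, h₁ g hg]
  rfl

end inv

/-! ### the four commutation relations -/

section commutation

variable {p : ℕ} (hp : p ≠ 0)
include hp

theorem heckeMatrix_mul_mapGL (g : SL(2, ℤ)) (j j' : ℕ) (e : ℤ)
    (he : g 0 1 + j * g 1 1 = j' * (g 0 0 + j * g 1 0) + p * e) :
    heckeMatrix p j * mapGL ℝ g =
      mapGL ℝ (mkSL (g 0 0 + j * g 1 0) e (p * g 1 0) (g 1 1 - g 1 0 * j')
        (by linear_combination sl_det_eq g + (g 1 0) * he)) * heckeMatrix p j' := by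
  ext i j
  fin_cases i <;> fin_cases j <;>
    simp [hp, Matrix.mul_apply, Fin.sum_univ_two]
  all_goals first
    | (have := congrArg (Int.cast : ℤ → ℝ) he; push_cast at this ⊢; linear_combination this)
    | (have := congrArg (Int.cast : ℤ → ℝ) he; push_cast at this ⊢; linear_combination -this)
    | ring1

theorem heckeMatrix_mul_mapGL' (g : SL(2, ℤ)) (j : ℕ) (e : ℤ)
    (he : g 0 0 + j * g 1 0 = p * e) :
    heckeMatrix p j * mapGL ℝ g =
      mapGL ℝ (mkSL e (g 0 1 + j * g 1 1) (g 1 0) (p * g 1 1)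
        (by linear_combination sl_det_eq g - (g 1 1) * he)) * heckeDiagMatrix p := by
  ext i j
  fin_cases i <;> fin_cases j <;>
    simp [hp, Matrix.mul_apply, Fin.sum_univ_two]
  all_goals first
    | (have := congrArg (Int.cast : ℤ → ℝ) he; push_cast at this ⊢; linear_combination this)
    | (have := congrArg (Int.cast : ℤ → ℝ) he; push_cast at this ⊢; linear_combination -this)
    | ring1

theorem heckeDiagMatrix_mul_mapGL (g : SL(2, ℤ)) (j' : ℕ) (e : ℤ)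
    (he : g 1 1 = g 1 0 * j' + p * e) :
    heckeDiagMatrix p * mapGL ℝ g =
      mapGL ℝ (mkSL (p * g 0 0) (g 0 1 - g 0 0 * j') (g 1 0) e
        (by linear_combination sl_det_eq g - (g 0 0) * he)) * heckeMatrix p j' := by
  ext i j
  fin_cases i <;> fin_cases j <;>
    simp [hp, Matrix.mul_apply, Fin.sum_univ_two]
  all_goals first
    | (have := congrArg (Int.cast : ℤ → ℝ) he; push_cast at this ⊢; linear_combination this)
    | (have := congrArg (Int.cast : ℤ → ℝ) he; push_cast at this ⊢; linear_combination -this)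
    | ring1

theorem heckeDiagMatrix_mul_mapGL' (g : SL(2, ℤ)) (e : ℤ) (he : g 1 0 = p * e) :
    heckeDiagMatrix p * mapGL ℝ g =
      mapGL ℝ (mkSL (g 0 0) (p * g 0 1) e (g 1 1)
        (by linear_combination sl_det_eq g + (g 0 1) * he)) * heckeDiagMatrix p := by
  ext i j
  fin_cases i <;> fin_cases j <;>
    simp [hp, Matrix.mul_apply, Fin.sum_univ_two]
  all_goals first
    | (have := congrArg (Int.cast : ℤ → ℝ) he; push_cast at this ⊢; linear_combination this)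
    | (have := congrArg (Int.cast : ℤ → ℝ) he; push_cast at this ⊢; linear_combination -this)
    | ring1

end commutation


/-! ### the representatives and the action on `ℙ¹(𝔽_p)` -/

section reindex

variable {p : ℕ} [NeZero p]

theorem sum_range_eq_sum_zmod' {M : Type*} [AddCommMonoid M] (F : ℕ → M) :
    ∑ j ∈ Finset.range p, F j = ∑ x : ZMod p, F x.val := by
  refine Finset.sum_nbij' (fun j : ℕ ↦ (j : ZMod p)) (fun x : ZMod p ↦ x.val)
    (fun _ _ ↦ Finset.mem_univ _)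
    (fun x _ ↦ Finset.mem_range.mpr x.val_lt) (fun j hj ↦ ?_) (fun x _ ↦ ?_) (fun j hj ↦ ?_)
  · exact ZMod.val_cast_of_lt (Finset.mem_range.mp hj)
  · exact ZMod.natCast_zmod_val x
  · rw [ZMod.val_cast_of_lt (Finset.mem_range.mp hj)]

theorem heckeU_eq_sum_zmod' (k : ℤ) (f : ℍ → ℂ) :
    heckeU k p f = ∑ x : ZMod p, f ∣[k] heckeMatrix p x.val := by
  rw [heckeU_def]
  exact sum_range_eq_sum_zmod' _

end reindex

section heckeT

variable {p : ℕ}

/-- Representatives of `Γ₁(N) \ Γ₁(N) diag(1, p) Γ₁(N)`: `β_j` (`j ∈ 𝔽_p`) and `δ α`. -/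
def heckeRep1 (p : ℕ) (δ : SL(2, ℤ)) (x : OnePoint (ZMod p)) : GL (Fin 2) ℝ :=
  x.elim (mapGL ℝ δ * heckeDiagMatrix p) (fun j ↦ heckeMatrix p j.val)

@[simp] theorem heckeRep1_infty (δ : SL(2, ℤ)) :
    heckeRep1 p δ ∞ = mapGL ℝ δ * heckeDiagMatrix p := rfl

@[simp] theorem heckeRep1_coe (δ : SL(2, ℤ)) (j : ZMod p) :
    heckeRep1 p δ j = heckeMatrix p j.val := rfl

/-- The Hecke operator `T_p` on `Γ₁(N)`-invariant functions; `δ ∈ Γ₀(N)` realises `⟨p⟩`. -/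
def dsT (k : ℤ) (p : ℕ) (δ : SL(2, ℤ)) (f : ℍ → ℂ) : ℍ → ℂ :=
  heckeU k p f + (f ∣[k] mapGL ℝ δ) ∣[k] heckeDiagMatrix p

theorem dsT_def (k : ℤ) (p : ℕ) (δ : SL(2, ℤ)) (f : ℍ → ℂ) :
    dsT k p δ f = heckeU k p f + (f ∣[k] mapGL ℝ δ) ∣[k] heckeDiagMatrix p := rfl

theorem dsT_eq_sum_onePoint [NeZero p] (k : ℤ) (δ : SL(2, ℤ)) (f : ℍ → ℂ) :
    dsT k p δ f = ∑ x : OnePoint (ZMod p), f ∣[k] heckeRep1 p δ x := by
  rw [dsT_def, heckeU_eq_sum_zmod', add_comm, ← SlashAction.slash_mul]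
  exact (Fintype.sum_option (fun x : OnePoint (ZMod p) ↦ f ∣[k] heckeRep1 p δ x)).symm

variable [Fact p.Prime]

variable (p) in
/-- The reduction mod `p` of `[[d, b], [c, a]]`, acting on `ℙ¹(𝔽_p)`. -/
def redMat (g : SL(2, ℤ)) : GL (Fin 2) (ZMod p) :=
  Matrix.GeneralLinearGroup.mkOfDetNeZero
    !![((g 1 1 : ℤ) : ZMod p), ((g 0 1 : ℤ) : ZMod p);
       ((g 1 0 : ℤ) : ZMod p), ((g 0 0 : ℤ) : ZMod p)]
    (by
      have := congrArg (Int.cast : ℤ → ZMod p) (sl_det_eq g)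
      push_cast at this
      rw [Matrix.det_fin_two_of,
        show ((g 1 1 : ℤ) : ZMod p) * ((g 0 0 : ℤ) : ZMod p)
            - ((g 0 1 : ℤ) : ZMod p) * ((g 1 0 : ℤ) : ZMod p) = 1 by linear_combination this]
      exact one_ne_zero)

@[simp] theorem redMat_apply_zero_zero (g : SL(2, ℤ)) :
    redMat p g 0 0 = ((g 1 1 : ℤ) : ZMod p) := by
  simp [redMat]

@[simp] theorem redMat_apply_zero_one (g : SL(2, ℤ)) :
    redMat p g 0 1 = ((g 0 1 : ℤ) : ZMod p) := by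
  simp [redMat]

@[simp] theorem redMat_apply_one_zero (g : SL(2, ℤ)) :
    redMat p g 1 0 = ((g 1 0 : ℤ) : ZMod p) := by
  simp [redMat]

@[simp] theorem redMat_apply_one_one (g : SL(2, ℤ)) :
    redMat p g 1 1 = ((g 0 0 : ℤ) : ZMod p) := by
  simp [redMat]

theorem prime_unit_zmod {N : ℕ} (hpN : ¬ p ∣ N) : IsUnit ((p : ℕ) : ZMod N) := by
  rw [ZMod.isUnit_iff_coprime]
  exact (Nat.Prime.coprime_iff_not_dvd Fact.out).mpr hpN

theorem heckeRep1_mul {N : ℕ} (hpN : ¬ p ∣ N) {δ : SL(2, ℤ)} (hδ : δ ∈ Gamma0 N)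
    (hδp : lr N δ = (p : ZMod N)) (g : SL(2, ℤ)) (hg : g ∈ Gamma1 N)
    (x : OnePoint (ZMod p)) :
    ∃ g' : SL(2, ℤ), g' ∈ Gamma1 N ∧
      heckeRep1 p δ x * mapGL ℝ g = mapGL ℝ g' * heckeRep1 p δ (redMat p g • x) := by
  have hp : p ≠ 0 := (Fact.out : p.Prime).ne_zero
  obtain ⟨ha, hd, hc⟩ := (Gamma1_mem N g).mp hg
  have hpu : IsUnit ((p : ℕ) : ZMod N) := prime_unit_zmod hpN
  induction x using OnePoint.rec with
  | infty =>
    rw [OnePoint.smul_infty_eq_ite]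
    by_cases hcp : ((g 1 0 : ℤ) : ZMod p) = 0
    · rw [if_pos (by simpa using hcp), heckeRep1_infty]
      obtain ⟨e, he⟩ := (ZMod.intCast_zmod_eq_zero_iff_dvd _ _).mp hcp
      have hmul := heckeDiagMatrix_mul_mapGL' hp g e he
      set g₄ := mkSL (g 0 0) (p * g 0 1) e (g 1 1)
        (by linear_combination sl_det_eq g + (g 0 1) * he) with hg₄
      have hg₄1 : g₄ ∈ Gamma1 N := by
        rw [Gamma1_mem]
        refine ⟨ha, hd, ?_⟩
        have h1 : ((p : ℕ) : ZMod N) * ((e : ℤ) : ZMod N) = 0 := by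
          have := congrArg (Int.cast : ℤ → ZMod N) he
          push_cast at this
          rw [← this, hc]
        exact (hpu.mul_right_eq_zero).mp h1
      refine ⟨δ * g₄ * δ⁻¹, conj_mem_Gamma1 hδ hg₄1, ?_⟩
      rw [mul_assoc, hmul, map_mul, map_mul, map_inv]
      group
    · rw [if_neg (by simpa using hcp), heckeRep1_infty, heckeRep1_coe]
      set y : ZMod p := redMat p g 0 0 / redMat p g 1 0 with hy
      obtain ⟨e, he⟩ : (p : ℤ) ∣ g 1 1 - g 1 0 * y.val := by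
        rw [← ZMod.intCast_zmod_eq_zero_iff_dvd]
        push_cast
        rw [ZMod.natCast_zmod_val, hy, redMat_apply_zero_zero, redMat_apply_one_zero,
          mul_div_cancel₀ _ hcp, sub_self]
      have he' : g 1 1 = g 1 0 * y.val + p * e := by linear_combination he
      have hmul := heckeDiagMatrix_mul_mapGL hp g y.val e he'
      set g₃ := mkSL (p * g 0 0) (g 0 1 - g 0 0 * y.val) (g 1 0) e
        (by linear_combination sl_det_eq g - (g 0 0) * he') with hg₃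
      have hg₃0 : g₃ ∈ Gamma0 N := Gamma0_mem.mpr hc
      refine ⟨δ * g₃, mem_Gamma1_of_lr (mul_mem hδ hg₃0) ?_, ?_⟩
      · rw [lr_mul hδ, hδp]
        have := congrArg (Int.cast : ℤ → ZMod N) he'
        push_cast at this
        rw [hc, hd, zero_mul, zero_add] at this
        rw [lr_def]
        simpa [hg₃] using this.symm
      · rw [mul_assoc, hmul, map_mul, mul_assoc]
  | coe j =>
    rw [OnePoint.smul_some_eq_ite]
    by_cases h : redMat p g 1 0 * j + redMat p g 1 1 = 0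
    · rw [if_pos h, heckeRep1_infty, heckeRep1_coe]
      rw [redMat_apply_one_zero, redMat_apply_one_one] at h
      obtain ⟨e, he⟩ : (p : ℤ) ∣ g 0 0 + j.val * g 1 0 := by
        rw [← ZMod.intCast_zmod_eq_zero_iff_dvd]
        push_cast
        rw [ZMod.natCast_zmod_val]
        linear_combination h
      have hmul := heckeMatrix_mul_mapGL' hp g j.val e he
      set g₂ := mkSL e (g 0 1 + j.val * g 1 1) (g 1 0) (p * g 1 1)
        (by linear_combination sl_det_eq g - (g 1 1) * he) with hg₂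
      have hg₂0 : g₂ ∈ Gamma0 N := Gamma0_mem.mpr hc
      refine ⟨g₂ * δ⁻¹, mul_inv_mem_Gamma1 hg₂0 hδ ?_, ?_⟩
      · rw [hδp, lr_def]
        simp [hg₂, hd]
      · rw [hmul, map_mul, map_inv]
        group
    · rw [if_neg h, heckeRep1_coe, heckeRep1_coe]
      set y : ZMod p := (redMat p g 0 0 * j + redMat p g 0 1) /
        (redMat p g 1 0 * j + redMat p g 1 1) with hy
      obtain ⟨e, he⟩ : (p : ℤ) ∣ g 0 1 + j.val * g 1 1 - y.val * (g 0 0 + j.val * g 1 0) := by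
        rw [← ZMod.intCast_zmod_eq_zero_iff_dvd]
        push_cast
        rw [ZMod.natCast_zmod_val, ZMod.natCast_zmod_val,
          show ((g 0 0 : ℤ) : ZMod p) + j * ((g 1 0 : ℤ) : ZMod p)
            = redMat p g 1 0 * j + redMat p g 1 1 by
              rw [redMat_apply_one_zero, redMat_apply_one_one]; ring,
          hy, div_mul_cancel₀ _ h, redMat_apply_zero_zero, redMat_apply_zero_one]
        ring
      have he' : g 0 1 + j.val * g 1 1 = y.val * (g 0 0 + j.val * g 1 0) + p * e := by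
        linear_combination he
      have hmul := heckeMatrix_mul_mapGL hp g j.val y.val e he'
      refine ⟨_, ?_, hmul⟩
      rw [Gamma1_mem]
      simp only [mkSL_00, mkSL_11, mkSL_10]
      push_cast
      rw [ha, hd, hc]
      simp

variable {N : ℕ} (k : ℤ)

/-- `T_p` preserves `Γ₁(N)`-invariance (`p ∤ N`). -/
theorem dsT_inv1 (hpN : ¬ p ∣ N) {δ : SL(2, ℤ)} (hδ : δ ∈ Gamma0 N)
    (hδp : lr N δ = (p : ZMod N)) {f : ℍ → ℂ} (hf : Inv1 N k f) :
    Inv1 N k (dsT k p δ f) := by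
  have : NeZero p := ⟨(Fact.out : p.Prime).ne_zero⟩
  intro g hg
  rw [dsT_eq_sum_onePoint k δ f, SlashAction.sum_slash]
  calc ∑ x : OnePoint (ZMod p), (f ∣[k] heckeRep1 p δ x) ∣[k] mapGL ℝ g
      = ∑ x : OnePoint (ZMod p), f ∣[k] heckeRep1 p δ (redMat p g • x) := by
        refine Finset.sum_congr rfl fun x _ ↦ ?_
        obtain ⟨g', hg', hmul⟩ := heckeRep1_mul hpN hδ hδp g hg x
        rw [← SlashAction.slash_mul, hmul, SlashAction.slash_mul, hf g' hg']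
    _ = ∑ x : OnePoint (ZMod p), f ∣[k] heckeRep1 p δ x :=
        Equiv.sum_comp (MulAction.toPerm (redMat p g)) (fun x ↦ f ∣[k] heckeRep1 p δ x)

end heckeT

end Fermat.Agent.H7.DS
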