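/-
P-DS row 453 (DS-0), helper7.  Part 2: the iteration lemma.

If `h` and `h ∣[k] diag(p, 1)` are both `Γ₁(N)`-invariant (`p` prime, `p ∤ N`), then
`h(τ) = p^{k m} h(p^{2m} τ)` for some `m ≥ 1`.
-/
import Mathlib
import Fermat.Prelude.Def_ModularForm_HeckeOperator
import Fermat.Agent.H7.DS.Coset

set_option autoImplicit false

noncomputable section

namespace Fermat.Agent.H7.DS

open Matrix.SpecialLinearGroup UpperHalfPlane CongruenceSubgroup ModularForm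
open scoped MatrixGroups ModularForm

section matrices

variable {p N : ℕ}

theorem exists_bezout_prime (hp : p.Prime) (hpN : ¬ p ∣ N) :
    ∃ u v : ℤ, u * p + v * N = 1 := by
  have h : IsCoprime (p : ℤ) (N : ℤ) :=
    Nat.isCoprime_iff_coprime.mpr ((Nat.Prime.coprime_iff_not_dvd hp).mpr hpN)
  obtain ⟨u, v, h⟩ := h
  exact ⟨u, v, h⟩

/-- An element of `Γ₀(N)` realising the diamond operator `⟨p⟩`. -/
theorem exists_diamond_prime (hp : p.Prime) (hpN : ¬ p ∣ N) :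
    ∃ δ : SL(2, ℤ), δ ∈ Gamma0 N ∧ lr N δ = (p : ZMod N) := by
  obtain ⟨u, v, h⟩ := exists_bezout_prime hp hpN
  refine ⟨mkSL u (-v) N p (by linear_combination h), Gamma0_mem.mpr ?_, ?_⟩
  · simp
  · simp [lr]

/-- The special element `γ₀ ∈ Γ₁(N)` with `α γ₀ = δ' β₀`, `δ'` realising `⟨p⁻¹⟩`. -/
theorem exists_special (hp : p.Prime) (hpN : ¬ p ∣ N) :
    ∃ γ₀ δ' : SL(2, ℤ), γ₀ ∈ Gamma1 N ∧ δ' ∈ Gamma0 N ∧ (p : ZMod N) * lr N δ' = 1 ∧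
      heckeDiagMatrix p * mapGL ℝ γ₀ = mapGL ℝ δ' * heckeMatrix p 0 := by
  obtain ⟨u, v, h⟩ := exists_bezout_prime hp hpN
  have hu : ((p : ℕ) : ZMod N) * ((u : ℤ) : ZMod N) = 1 := by
    have := congrArg (Int.cast : ℤ → ZMod N) h
    push_cast at this
    rw [ZMod.natCast_self, mul_zero, add_zero] at this
    rw [mul_comm]
    exact this
  set γ₀ := mkSL 1 (-v) N (p * u) (by linear_combination h) with hγ₀
  have hmul := heckeDiagMatrix_mul_mapGL hp.ne_zero γ₀ 0 u (by simp [hγ₀])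
  refine ⟨γ₀, _, ?_, ?_, ?_, hmul⟩
  · rw [Gamma1_mem]
    refine ⟨by simp [hγ₀], ?_, by simp [hγ₀]⟩
    simp only [hγ₀, mkSL_11]
    push_cast
    exact hu
  · exact Gamma0_mem.mpr (by simp [hγ₀])
  · simpa [lr] using hu

theorem isCoprime_lr {δ : SL(2, ℤ)} (hδ : δ ∈ Gamma0 N) : IsCoprime (δ 1 1) (N : ℤ) := by
  have hc : (N : ℤ) ∣ δ 1 0 := (ZMod.intCast_zmod_eq_zero_iff_dvd _ _).mp (Gamma0_mem.mp hδ)
  obtain ⟨c, hc⟩ := hc
  refine ⟨δ 0 0, -(δ 0 1 * c), ?_⟩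
  linear_combination sl_det_eq δ + δ 0 1 * hc

/-- Every diamond operator is realised by an element `δ₂ ∈ Γ₀(N)` with `α δ₂ = g₄ α`. -/
theorem exists_commuting (hp : p.Prime) (hpN : ¬ p ∣ N) {δ₁ : SL(2, ℤ)} (hδ₁ : δ₁ ∈ Gamma0 N) :
    ∃ δ₂ g₄ : SL(2, ℤ), δ₂ ∈ Gamma0 N ∧ g₄ ∈ Gamma0 N ∧ lr N g₄ = lr N δ₁ ∧
      heckeDiagMatrix p * mapGL ℝ δ₂ = mapGL ℝ g₄ * heckeDiagMatrix p := by
  have hpZ : Prime (p : ℤ) := Nat.prime_iff_prime_int.mp hp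
  have hpN' : ¬ (p : ℤ) ∣ (N : ℤ) := fun h => hpN (Int.natCast_dvd_natCast.mp h)
  have h0 := isCoprime_lr hδ₁
  obtain ⟨d₂, hd₂N, hd₂p, hd₂⟩ : ∃ d₂ : ℤ, IsCoprime d₂ (N : ℤ) ∧ ¬ (p : ℤ) ∣ d₂ ∧
      ((d₂ : ℤ) : ZMod N) = lr N δ₁ := by
    by_cases hd : (p : ℤ) ∣ δ₁ 1 1
    · refine ⟨δ₁ 1 1 + N, ?_, ?_, ?_⟩
      · simpa using h0.add_mul_left_left 1
      · intro h
        exact hpN' ((dvd_add_right hd).mp h)
      · simp [lr]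
    · exact ⟨δ₁ 1 1, h0, hd, rfl⟩
  have hcop : IsCoprime d₂ ((p : ℤ) * N) := by
    refine IsCoprime.mul_right ?_ hd₂N
    exact ((Prime.coprime_iff_not_dvd hpZ).mpr hd₂p).symm
  obtain ⟨a, b, hab⟩ := hcop
  set δ₂ := mkSL a (-b) (p * N) d₂ (by linear_combination hab) with hδ₂
  have hmul := heckeDiagMatrix_mul_mapGL' hp.ne_zero δ₂ N (by simp [hδ₂])
  refine ⟨δ₂, _, Gamma0_mem.mpr (by simp [hδ₂]), Gamma0_mem.mpr (by simp), ?_, hmul⟩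
  rw [← hd₂]
  simp [lr, hδ₂]

theorem heckeDiagMatrix_mul (a b : ℕ) (ha : a ≠ 0) (hb : b ≠ 0) :
    heckeDiagMatrix (a * b) = heckeDiagMatrix a * heckeDiagMatrix b := by
  ext i j
  fin_cases i <;> fin_cases j <;>
    simp [ha, hb, Matrix.mul_apply, Fin.sum_univ_two]

theorem heckeDiagMatrix_one : heckeDiagMatrix 1 = 1 := by
  ext i j
  fin_cases i <;> fin_cases j <;> simp

theorem heckeDiagMatrix_pow (hp : p ≠ 0) (n : ℕ) :
    heckeDiagMatrix p ^ n = heckeDiagMatrix (p ^ n) := by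
  induction n with
  | zero => simp [heckeDiagMatrix_one]
  | succ n ih => rw [pow_succ, ih, pow_succ, heckeDiagMatrix_mul _ _ (pow_ne_zero n hp) hp]

theorem heckeMatrix_zero_smul_heckeDiagMatrix_smul (hp : p ≠ 0) (τ : ℍ) :
    heckeMatrix p 0 • (heckeDiagMatrix p • τ) = τ := by
  apply UpperHalfPlane.ext
  rw [coe_heckeMatrix_smul hp, coe_heckeDiagMatrix_smul hp]
  have hp' : (p : ℂ) ≠ 0 := by exact_mod_cast hp
  simp only [Nat.cast_zero, add_zero]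
  field_simp

end matrices

section iteration

variable {p N : ℕ} {k : ℤ}

/-- If `h` and `h ∣ α` are `Γ₁(N)`-invariant then so is `(⟨d⟩ h) ∣ α`. -/
theorem inv1_diamond_slash_diag (hp : p.Prime) (hpN : ¬ p ∣ N) {h : ℍ → ℂ}
    (h1 : Inv1 N k h) (h2 : Inv1 N k (h ∣[k] heckeDiagMatrix p))
    {δ₁ : SL(2, ℤ)} (hδ₁ : δ₁ ∈ Gamma0 N) :
    Inv1 N k ((h ∣[k] mapGL ℝ δ₁) ∣[k] heckeDiagMatrix p) := by
  obtain ⟨δ₂, g₄, hδ₂, hg₄, hlr, hmul⟩ := exists_commuting hp hpN hδ₁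
  have e1 : (h ∣[k] mapGL ℝ δ₁) ∣[k] heckeDiagMatrix p =
      (h ∣[k] heckeDiagMatrix p) ∣[k] mapGL ℝ δ₂ := by
    rw [h1.slash_eq hδ₁ hg₄ hlr.symm, ← SlashAction.slash_mul, ← hmul, SlashAction.slash_mul]
  rw [e1]
  exact h2.slash hδ₂

/-- One step: `⟨p⁻¹⟩ h (τ) = p^k h(p² τ)`. -/
theorem diamond_inv_apply (hp : p.Prime) {h : ℍ → ℂ}
    (h2 : Inv1 N k (h ∣[k] heckeDiagMatrix p))
    {γ₀ δ' : SL(2, ℤ)} (hγ₀ : γ₀ ∈ Gamma1 N)
    (hmul : heckeDiagMatrix p * mapGL ℝ γ₀ = mapGL ℝ δ' * heckeMatrix p 0) (τ : ℍ) :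
    (h ∣[k] mapGL ℝ δ') τ = (p : ℂ) ^ k * h (heckeDiagMatrix p • heckeDiagMatrix p • τ) := by
  have hp0 : p ≠ 0 := hp.ne_zero
  have hp' : (p : ℂ) ≠ 0 := by exact_mod_cast hp0
  have e1 : h ∣[k] heckeDiagMatrix p = (h ∣[k] mapGL ℝ δ') ∣[k] heckeMatrix p 0 := by
    conv_lhs => rw [← h2 γ₀ hγ₀]
    rw [← SlashAction.slash_mul, hmul, SlashAction.slash_mul]
  have e2 := congrFun e1 (heckeDiagMatrix p • τ)
  rw [slash_heckeDiagMatrix_apply k hp0, slash_heckeMatrix_apply k hp0,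
    heckeMatrix_zero_smul_heckeDiagMatrix_smul hp0] at e2
  have e3 : (h ∣[k] mapGL ℝ δ') τ =
      (p : ℂ) * ((p : ℂ) ^ (k - 1) * h (heckeDiagMatrix p • heckeDiagMatrix p • τ)) := by
    rw [e2]
    field_simp
  rw [e3, ← mul_assoc, ← zpow_one_add₀ hp']
  congr 2
  ring

theorem diamond_inv_pow_apply (hp : p.Prime) (hpN : ¬ p ∣ N) {h : ℍ → ℂ}
    (h1 : Inv1 N k h) (h2 : Inv1 N k (h ∣[k] heckeDiagMatrix p))
    {γ₀ δ' : SL(2, ℤ)} (hγ₀ : γ₀ ∈ Gamma1 N) (hδ' : δ' ∈ Gamma0 N)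
    (hmul : heckeDiagMatrix p * mapGL ℝ γ₀ = mapGL ℝ δ' * heckeMatrix p 0) (m : ℕ) (τ : ℍ) :
    (h ∣[k] mapGL ℝ (δ' ^ m)) τ =
      ((p : ℂ) ^ k) ^ m * h ((heckeDiagMatrix p ^ (2 * m)) • τ) := by
  induction m generalizing τ with
  | zero => simp
  | succ m ih =>
    have hm0 : δ' ^ m ∈ Gamma0 N := pow_mem hδ' m
    have h2' := inv1_diamond_slash_diag hp hpN h1 h2 hm0
    rw [pow_succ, map_mul, SlashAction.slash_mul, diamond_inv_apply hp h2' hγ₀ hmul, ih,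
      ← mul_smul, ← mul_smul, pow_succ ((p : ℂ) ^ k)]
    have e : heckeDiagMatrix p ^ (2 * m) * (heckeDiagMatrix p * heckeDiagMatrix p) =
        heckeDiagMatrix p ^ (2 * (m + 1)) := by
      rw [← pow_two, ← pow_add]
      congr 1
    rw [mul_assoc, e]
    ring

/-- **The iteration lemma.** -/
theorem exists_iterate_eq [NeZero N] (hp : p.Prime) (hpN : ¬ p ∣ N) {h : ℍ → ℂ}
    (h1 : Inv1 N k h) (h2 : Inv1 N k (h ∣[k] heckeDiagMatrix p)) :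
    ∃ m : ℕ, 0 < m ∧
      ∀ τ : ℍ, h τ = ((p : ℂ) ^ k) ^ m * h (heckeDiagMatrix (p ^ (2 * m)) • τ) := by
  obtain ⟨γ₀, δ', hγ₀, hδ', hlr, hmul⟩ := exists_special (N := N) hp hpN
  refine ⟨N.totient, Nat.totient_pos.mpr (Nat.pos_of_ne_zero (NeZero.ne N)), fun τ => ?_⟩
  have hu : IsUnit (lr N δ') := isUnit_lr hδ'
  have hpow : lr N (δ' ^ N.totient) = 1 := by
    rw [lr_pow hδ']
    obtain ⟨u, hu⟩ := hu
    rw [← hu, ← Units.val_pow_eq_pow_val, ZMod.pow_totient, Units.val_one]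
  have hmem : δ' ^ N.totient ∈ Gamma1 N := mem_Gamma1_of_lr (pow_mem hδ' _) hpow
  have e := diamond_inv_pow_apply hp hpN h1 h2 hγ₀ hδ' hmul N.totient τ
  rw [h1 _ hmem, heckeDiagMatrix_pow hp.ne_zero] at e
  exact e

end iteration

end Fermat.Agent.H7.DS
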