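/-
P-DS row 453 (DS-0), helper7.  Part 3: `q`-expansion facts for "nice" functions
(`1`-periodic, holomorphic, bounded at `i∞`):

* `qCoeff_slash_heckeDiag` : the coefficients of `f ∣[k] diag(p, 1)`;
* `hecke_function_identity` : the Hecke relation on coefficients gives
  `U_p f + c • (f ∣[1] diag(p, 1)) = a • f` as functions;
* `eq_zero_of_scaling` : `h(τ) = C h(P τ)` with `C ≠ 1`, `P ≥ 2` forces `h = 0`.
-/
import Mathlib
import Fermat.Prelude.Def_ModularForm_HeckeOperator
import Fermat.Prelude.Def_FLTPrelim_Modularity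
import Fermat.Prelude.Thm_UpperHalfPlane_qCoeff_heckeU
import Fermat.Prelude.Thm_UpperHalfPlane_qCoeff_heckeT
import Fermat.Prelude.Thm_UpperHalfPlane_eq_of_forall_qCoeff_eq
import Fermat.Prelude.Thm_ModularForm_mdifferentiable_heckeU
import Fermat.Prelude.Thm_ModularForm_isBoundedAtImInfty_heckeU
import Fermat.Prelude.Thm_ModularForm_periodic_heckeU_comp_ofComplex
import Fermat.Prelude.Thm_ModularForm_mdifferentiable_heckeT
import Fermat.Prelude.Thm_ModularForm_isBoundedAtImInfty_heckeT
import Fermat.Prelude.Thm_ModularForm_periodic_heckeT_comp_ofComplex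

set_option autoImplicit false

noncomputable section

namespace Fermat.Agent.H7.DS

open UpperHalfPlane ModularForm
open scoped MatrixGroups ModularForm Manifold

/-- A function on the upper half plane with a convergent `q`-expansion: `1`-periodic, holomorphic
and bounded at `i∞`. -/
structure NiceFn (f : ℍ → ℂ) : Prop where
  per : Function.Periodic (f ∘ UpperHalfPlane.ofComplex) 1
  hol : MDiff f
  bdd : IsBoundedAtImInfty f

namespace NiceFn

variable {f g : ℍ → ℂ}

theorem analyticAt (hf : NiceFn f) : AnalyticAt ℂ (cuspFunction 1 f) 0 :=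
  analyticAt_cuspFunction_zero one_pos hf.per hf.hol hf.bdd

theorem add (hf : NiceFn f) (hg : NiceFn g) : NiceFn (f + g) where
  per := by
    intro x
    have h1 := hf.per x
    have h2 := hg.per x
    simp only [Function.comp_apply, Pi.add_apply] at h1 h2 ⊢
    rw [h1, h2]
  hol := hf.hol.add hg.hol
  bdd := hf.bdd.add hg.bdd

theorem smul (hf : NiceFn f) (c : ℂ) : NiceFn (c • f) where
  per := by
    intro x
    have h1 := hf.per x
    simp only [Function.comp_apply, Pi.smul_apply] at h1 ⊢
    rw [h1]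
  hol := hf.hol.const_smul c
  bdd := hf.bdd.const_smul_left c

theorem neg (hf : NiceFn f) : NiceFn (-f) := by
  have := hf.smul (-1)
  simpa using this

theorem sub (hf : NiceFn f) (hg : NiceFn g) : NiceFn (f - g) := by
  rw [sub_eq_add_neg]
  exact hf.add hg.neg

theorem heckeU (hf : NiceFn f) (k : ℤ) (p : ℕ) : NiceFn (ModularForm.heckeU k p f) where
  per := ModularForm.periodic_heckeU_comp_ofComplex hf.per k p
  hol := ModularForm.mdifferentiable_heckeU hf.hol k p
  bdd := ModularForm.isBoundedAtImInfty_heckeU hf.bdd k p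

theorem heckeT (hf : NiceFn f) (k : ℤ) (p : ℕ) : NiceFn (ModularForm.heckeT k p f) where
  per := ModularForm.periodic_heckeT_comp_ofComplex hf.per k p
  hol := ModularForm.mdifferentiable_heckeT hf.hol k p
  bdd := ModularForm.isBoundedAtImInfty_heckeT hf.bdd k p

theorem slash_heckeDiag (hf : NiceFn f) (k : ℤ) (p : ℕ) :
    NiceFn (f ∣[k] heckeDiagMatrix p) := by
  have h : f ∣[k] heckeDiagMatrix p = ModularForm.heckeT k p f - ModularForm.heckeU k p f := by
    rw [heckeT_eq_heckeU_add]
    abel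
  rw [h]
  exact (hf.heckeT k p).sub (hf.heckeU k p)

theorem qCoeff_add (hf : NiceFn f) (hg : NiceFn g) (n : ℕ) :
    ModularFormClass.qCoeff (f + g) n =
      ModularFormClass.qCoeff f n + ModularFormClass.qCoeff g n := by
  simp only [ModularFormClass.qCoeff]
  rw [qExpansion_add hf.analyticAt hg.analyticAt, map_add]

theorem qCoeff_smul (hf : NiceFn f) (c : ℂ) (n : ℕ) :
    ModularFormClass.qCoeff (c • f) n = c * ModularFormClass.qCoeff f n := by
  simp only [ModularFormClass.qCoeff]
  rw [qExpansion_smul hf.analyticAt, PowerSeries.coeff_smul, smul_eq_mul]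

theorem qCoeff_slash_heckeDiag (hf : NiceFn f) (k : ℤ) {p : ℕ} (hp : p ≠ 0) (n : ℕ) :
    ModularFormClass.qCoeff (f ∣[k] heckeDiagMatrix p) n =
      if p ∣ n then (p : ℂ) ^ (k - 1) * ModularFormClass.qCoeff f (n / p) else 0 := by
  have h1 := UpperHalfPlane.qCoeff_heckeT hf.per hf.hol hf.bdd k hp n
  have h2 := UpperHalfPlane.qCoeff_heckeU hf.per hf.hol hf.bdd k hp n
  rw [heckeT_eq_heckeU_add, qCoeff_add (hf.heckeU k p) (hf.slash_heckeDiag k p), h2,
    coeffHeckeT_apply, coeffHeckeU_apply] at h1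
  exact add_left_cancel h1

theorem eq_of_qCoeff (hf : NiceFn f) (hg : NiceFn g)
    (h : ∀ n : ℕ, ModularFormClass.qCoeff f n = ModularFormClass.qCoeff g n) : f = g :=
  UpperHalfPlane.eq_of_forall_qCoeff_eq hf.per hf.hol hf.bdd hg.per hg.hol hg.bdd h

theorem eq_zero_of_qCoeff (hf : NiceFn f) (h : ∀ n : ℕ, ModularFormClass.qCoeff f n = 0) :
    f = 0 := by
  have h0 : f = (0 : ℂ) • f := by
    refine hf.eq_of_qCoeff (hf.smul 0) fun n => ?_
    rw [qCoeff_smul hf, h n, mul_zero]
  rw [h0, zero_smul]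

end NiceFn

/-- The Hecke relation on `q`-coefficients, as an identity of functions (weight one). -/
theorem hecke_function_identity {f : ℍ → ℂ} (hf : NiceFn f) {p : ℕ} (hp : p ≠ 0) (c a : ℂ)
    (h : ∀ n : ℕ, ModularFormClass.qCoeff f (p * n) +
        c * (if p ∣ n then ModularFormClass.qCoeff f (n / p) else 0) =
      a * ModularFormClass.qCoeff f n) :
    ModularForm.heckeU 1 p f + c • (f ∣[(1 : ℤ)] heckeDiagMatrix p) = a • f := by
  refine ((hf.heckeU 1 p).add ((hf.slash_heckeDiag 1 p).smul c)).eq_of_qCoeff (hf.smul a)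
    fun n => ?_
  rw [NiceFn.qCoeff_add (hf.heckeU 1 p) ((hf.slash_heckeDiag 1 p).smul c),
    NiceFn.qCoeff_smul (hf.slash_heckeDiag 1 p), NiceFn.qCoeff_smul hf,
    hf.qCoeff_slash_heckeDiag 1 hp, UpperHalfPlane.qCoeff_heckeU hf.per hf.hol hf.bdd 1 hp n,
    coeffHeckeU_apply, ← h n, mul_comm n p]
  simp

/-- A nice function with `h(τ) = C h(P τ)`, `C ≠ 1`, `P ≥ 2`, vanishes. -/
theorem eq_zero_of_scaling {h : ℍ → ℂ} (hh : NiceFn h) {P : ℕ} (hP : 2 ≤ P) {C : ℂ} (hC : C ≠ 1)
    (hs : ∀ τ : ℍ, h τ = C * h (heckeDiagMatrix P • τ)) : h = 0 := by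
  have hP0 : P ≠ 0 := by omega
  have e : h = C • (h ∣[(1 : ℤ)] heckeDiagMatrix P) := by
    funext τ
    rw [Pi.smul_apply, slash_heckeDiagMatrix_apply 1 hP0, smul_eq_mul, sub_self, zpow_zero,
      one_mul]
    exact hs τ
  have hq : ∀ n : ℕ, ModularFormClass.qCoeff h n =
      C * (if P ∣ n then ModularFormClass.qCoeff h (n / P) else 0) := by
    intro n
    conv_lhs => rw [e]
    rw [NiceFn.qCoeff_smul (hh.slash_heckeDiag 1 P), hh.qCoeff_slash_heckeDiag 1 hP0]
    simp
  refine hh.eq_zero_of_qCoeff fun n => ?_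
  induction n using Nat.strong_induction_on with
  | _ n ih =>
    rcases Nat.eq_zero_or_pos n with rfl | hn
    · have h0 := hq 0
      rw [if_pos (dvd_zero P), Nat.zero_div] at h0
      have h1 : (1 - C) * ModularFormClass.qCoeff h 0 = 0 := by linear_combination h0
      rcases mul_eq_zero.mp h1 with h2 | h2
      · exact absurd (by linear_combination -h2) hC
      · exact h2
    · rw [hq n]
      split_ifs with hd
      · rw [ih (n / P) (Nat.div_lt_self hn (by omega)), mul_zero]
      · rw [mul_zero]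

end Fermat.Agent.H7.DS
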