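/-
P-DS row 453 (DS-0), helper7.  `NebentypusStatement`: a weight-one cusp form on `Γ₁(N)` with
`a₁ = 1` satisfying the Hecke relations with `ε` at all primes `p ∤ N` has nebentypus `ε`.

Route: (1) the Hecke relation gives `U_p f + ε(p) V_p f = a_p f` as functions (`QExp`);
(2) `T_p f = U_p f + V_p ⟨p⟩ f` is `Γ₁(N)`-invariant (`Coset`), so `V_p h` is, `h := ⟨p⟩f - ε(p) f`;
(3) hence `h(τ) = p^m h(p^{2m} τ)` (`Iterate`) and `h = 0`; (4) Dirichlet's theorem on primes in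
arithmetic progressions.
-/
import Mathlib
import Fermat.Agent.H20.DS.Interfaces
import Fermat.Agent.H7.DS.Coset
import Fermat.Agent.H7.DS.Iterate
import Fermat.Agent.H7.DS.QExp

set_option autoImplicit false

noncomputable section

namespace Fermat.Agent.H7.DS

open Matrix.SpecialLinearGroup UpperHalfPlane CongruenceSubgroup ModularForm
open scoped MatrixGroups ModularForm Manifold

variable {N : ℕ} {k : ℤ}

theorem Inv1.periodic {f : ℍ → ℂ} (hf : Inv1 N k f) :
    Function.Periodic (f ∘ UpperHalfPlane.ofComplex) 1 := by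
  let F : SlashInvariantForm ((Gamma1 N : Subgroup SL(2, ℤ)) : Subgroup (GL (Fin 2) ℝ)) k :=
    { toFun := f
      slash_action_eq' := by
        rintro γ ⟨g, hg, rfl⟩
        exact hf g hg }
  have h1 : (1 : ℝ) ∈ ((Gamma1 N : Subgroup SL(2, ℤ)) : Subgroup (GL (Fin 2) ℝ)).strictPeriods := by
    rw [CongruenceSubgroup.strictPeriods_Gamma1]
    exact AddSubgroup.mem_zmultiples 1
  have key := SlashInvariantFormClass.periodic_comp_ofComplex F h1
  intro x
  have hx := key x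
  simp only [Function.comp_apply, Complex.ofReal_one] at hx ⊢
  exact hx

theorem inv1_of_cuspForm (f : CuspForm (Gamma1 N) k) : Inv1 N k ⇑f := by
  intro g hg
  exact SlashInvariantFormClass.slash_action_eq f _ (Subgroup.mem_map_of_mem _ hg)

theorem niceFn_slash [NeZero N] (f : CuspForm (Gamma1 N) k) {δ : SL(2, ℤ)} (hδ : δ ∈ Gamma0 N) :
    NiceFn (⇑f ∣[k] mapGL ℝ δ) where
  per := ((inv1_of_cuspForm f).slash hδ).periodic
  hol := (ModularFormClass.holo f).slash k _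
  bdd := ModularFormClass.bdd_at_infty_slash f δ

theorem niceFn_cuspForm [NeZero N] (f : CuspForm (Gamma1 N) k) : NiceFn ⇑f := by
  have h := niceFn_slash f (one_mem (Gamma0 N))
  simpa using h

/-- The diamond operator `⟨p⟩` acts on `f` by `ε(p)`. -/
theorem diamond_prime_eq [NeZero N] (ε : DirichletCharacter ℂ N) (f : CuspForm (Gamma1 N) 1)
    (hf : Fermat.Agent.H20.DS.IsDSEigen N ε f) {p : ℕ} (hp : p.Prime) (hpN : ¬ p ∣ N)
    {δ : SL(2, ℤ)} (hδ : δ ∈ Gamma0 N) (hδp : lr N δ = (p : ZMod N)) :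
    ⇑f ∣[(1 : ℤ)] mapGL ℝ δ = ε (p : ZMod N) • ⇑f := by
  have : Fact p.Prime := ⟨hp⟩
  have hI := inv1_of_cuspForm f
  have hn := niceFn_cuspForm f
  have hstar := hecke_function_identity hn hp.ne_zero (ε (p : ZMod N))
    (ModularFormClass.qCoeff f p) (hf.hecke p hp hpN)
  set h : ℍ → ℂ := ⇑f ∣[(1 : ℤ)] mapGL ℝ δ - ε (p : ZMod N) • ⇑f with hh
  have h1 : Inv1 N 1 h := (hI.slash hδ).sub (hI.smul _)
  have hT := dsT_inv1 1 hpN hδ hδp hI
  have e : h ∣[(1 : ℤ)] heckeDiagMatrix p =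
      dsT 1 p δ ⇑f - ModularFormClass.qCoeff f p • ⇑f := by
    rw [dsT_def, ← hstar, hh, sub_eq_add_neg, SlashAction.add_slash, SlashAction.neg_slash,
      ModularForm.smul_slash, σ_heckeDiagMatrix]
    simp only [ContinuousAlgEquiv.refl_apply]
    abel
  have h2 : Inv1 N 1 (h ∣[(1 : ℤ)] heckeDiagMatrix p) := by
    rw [e]
    exact hT.sub (hI.smul _)
  obtain ⟨m, hm, hs⟩ := exists_iterate_eq hp hpN h1 h2
  have hnh : NiceFn h := (niceFn_slash f hδ).sub (hn.smul _)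
  have hP : 2 ≤ p ^ (2 * m) := Nat.one_lt_pow (by omega) hp.one_lt
  have hC : (((p : ℂ) ^ (1 : ℤ)) ^ m) ≠ 1 := by
    rw [zpow_one]
    have h3 : 1 < p ^ m := Nat.one_lt_pow (by omega) hp.one_lt
    have h4 : ((p ^ m : ℕ) : ℂ) ≠ 1 := by
      exact_mod_cast h3.ne'
    simpa using h4
  have hz := eq_zero_of_scaling hnh hP hC hs
  exact sub_eq_zero.mp hz

/-- **DS-0** (row 453): the nebentypus statement. -/
theorem nebentypus : Fermat.Agent.H20.DS.NebentypusStatement := by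
  intro N _ ε f hf γ hγ
  have hu : IsUnit (lr N γ) := isUnit_lr hγ
  obtain ⟨p, hpgt, hp, hpe⟩ := Nat.forall_exists_prime_gt_and_eq_mod hu N
  have hpN : ¬ p ∣ N := fun h =>
    absurd (Nat.le_of_dvd (Nat.pos_of_ne_zero (NeZero.ne N)) h) (by omega)
  obtain ⟨δ, hδ, hδp⟩ := exists_diamond_prime hp hpN
  have h1 := diamond_prime_eq ε f hf hp hpN hδ hδp
  have h2 := (inv1_of_cuspForm f).slash_eq hγ hδ (by rw [hδp, hpe])
  rw [SL_slash]
  change ⇑f ∣[(1 : ℤ)] mapGL ℝ γ = _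
  rw [h2, h1, hpe]
  rfl

end Fermat.Agent.H7.DS
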